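import Fermat.Agent.S29.H389.K2
import Fermat.Agent.S29.M4b.Top

/-!
# S29 / M4b / PIECE K2 in the `Prop` form of `M4b/Top.lean` (helper389)

`pieceK2 N p hp : M4b.PieceK2 N p` for every level `N` and every modulus `p ≠ 0`.
-/

set_option autoImplicit false

noncomputable section

namespace Fermat.Agent.S29.H389

open Fermat.Agent.S29 Fermat.Agent.S29.M4b

/-- PIECE `K2` of the M4b top assembly, for every level and every nonzero modulus. -/
theorem pieceK2 (N : ℕ) [NeZero N] (p : ℕ) (hp : p ≠ 0) : PieceK2 N p := by
  have : NeZero p := ⟨hp⟩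
  intro c hc U u hU hu
  exact exists_isKummerClass_of_realised N p hc hU hu

/-- PIECE `K2` for all levels and all prime moduli (the hypothesis `h2` of
`M4b.M4bStatement_of_pieces`). -/
theorem pieceK2_prime (N : ℕ) [NeZero N] (p : ℕ) (hp : p.Prime) : PieceK2 N p :=
  pieceK2 N p hp.ne_zero

end Fermat.Agent.S29.H389
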