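import Fermat.Agent.S29.H282.K2
import Fermat.Agent.S29.H882.MeroPrim

/-!
# S29 / M4b / K3-FIN, sub-piece (F1) = DICT-hard over `ℂ`, M4b language (helper389)

For a twisted function `U` of a character `c` killing the parabolic and elliptic elements of
`Γ₀(N)`, the `q`-expansion `f = qexp (U ^ p)` (an element of `F_ℂ = FC N` by MERO) satisfies
`p ∣ ord_w f` at EVERY place `w` of `F_ℂ / ℂ`.

This is sub-piece (F1) of helper42's decomposition of `K3.FinStatement` (coord/S29-K3.md):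
the landed generic dictionary `H282.dvd_ord_of_isAvatar_pow` at `K = ℂ`, `ι = id`.
-/

set_option autoImplicit false

noncomputable section

open ModularCurve AlgebraicCurve CongruenceSubgroup UpperHalfPlane
open scoped MatrixGroups Manifold Real

namespace Fermat.Agent.S29.H389

open Fermat.Agent.S24 Fermat.Agent.S24.H997 Fermat.Agent.S24.H648 Fermat.Agent.S24.H708
open Fermat.Agent.S24.H624
open Fermat.Agent.S29 Fermat.Agent.S29.M4b Fermat.Agent.S29.H282

variable {N : ℕ} [NeZero N] {p : ℕ} [NeZero p]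

omit [NeZero p] in
/-- The `q`-expansion of the `p`-th power of a twisted function, as an element of `F_ℂ`. -/
def F1_qexpPow {c : G0 N → ZMod p} {U : ℍ → ℂ} (hU : IsTwisted N p c U) : FFK ℂ N :=
  ⟨qexpFun 1 (fun τ => U τ ^ p), H882.qexpFun_mem_FC hU.pow_mem⟩

omit [NeZero p] in
@[simp] theorem F1_coe_qexpPow {c : G0 N → ZMod p} {U : ℍ → ℂ} (hU : IsTwisted N p c U) :
    ((F1_qexpPow hU : FFK ℂ N) : LaurentSeries ℂ) = qexpFun 1 (fun τ => U τ ^ p) := rfl

/-- The avatar relation over `ℂ`: any `f ∈ F_ℂ` whose underlying Laurent series is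
`qexp (U ^ p)` has the analytic avatar `U ^ p`. -/
theorem F1_isAvatar {c : G0 N → ZMod p} (hc : IsParHom c) {U : ℍ → ℂ}
    (hU : IsTwisted N p c U) {f : FFK ℂ N}
    (hf : (f : LaurentSeries ℂ) = qexpFun 1 (fun τ => U τ ^ p)) :
    IsAvatar (K := ℂ) (RingHom.id ℂ) (analyticCore N).toHolBase f (twistedHol hc hU ^ p) := by
  have hq : HasQExp 1 (fun τ => U τ ^ p) (qexpFun 1 (fun τ => U τ ^ p)) :=
    Fermat.Agent.S29.H882.hasQExp_of_mem_goodRing hU.pow_mem
  have hinf : InfExp N (fun τ => U τ ^ p)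
      (qExpand ℂ N (coeffMap (RingHom.id ℂ) (f : LaurentSeries ℂ))) := by
    rw [coeffMap_id, hf]
    exact infExp_level_of_hasQExp hq
  exact (expInf_spec (holToExp N (twistedHol hc hU ^ p))).unique hinf

/-- **(F1) DICT-hard over `ℂ`**: `p ∣ ord_w f` at every place `w` of `F_ℂ`, for every `f ∈ F_ℂ`
whose Laurent series is the `q`-expansion of `U ^ p`, `U` twisted of a parabolic character. -/
theorem F1_dvd_ord_of_eq {c : G0 N → ZMod p} (hc : IsParHom c) {U : ℍ → ℂ}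
    (hU : IsTwisted N p c U) {f : FFK ℂ N}
    (hf : (f : LaurentSeries ℂ) = qexpFun 1 (fun τ => U τ ^ p))
    (w : Place ℂ (FFK ℂ N)) : (p : ℤ) ∣ w.ord f :=
  dvd_ord_of_isAvatar_pow (K := ℂ) (ι := RingHom.id ℂ) (A := analyticCore N)
    (isUnramified_twistedHol hc hU) (F1_isAvatar hc hU hf) w

/-- **(F1)** for the canonical element `F1_qexpPow hU` of `F_ℂ`. -/
theorem F1_dvd_ord_qexpPow {c : G0 N → ZMod p} (hc : IsParHom c) {U : ℍ → ℂ}
    (hU : IsTwisted N p c U) (w : Place ℂ (FFK ℂ N)) : (p : ℤ) ∣ w.ord (F1_qexpPow hU) :=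
  F1_dvd_ord_of_eq hc hU rfl w

/-- `qexp (U ^ p) ≠ 0`. -/
theorem F1_qexpPow_ne_zero {c : G0 N → ZMod p} {U : ℍ → ℂ} (hU : IsTwisted N p c U) :
    F1_qexpPow hU ≠ 0 := by
  intro h0
  have h1 : qexpFun 1 (fun τ => U τ ^ p) = 0 := congrArg Subtype.val h0
  have h2 := (qexpFun_eq_zero_iff (Fermat.Agent.S29.H882.isMerInf_of_mem_goodRing hU.pow_mem)).mp h1
  obtain ⟨τ, hτ⟩ := hU.ne_zero
  exact hτ (pow_eq_zero_iff (NeZero.ne p) |>.mp (congrFun h2 τ))

/-! ### (F2) transport under automorphisms of `ℂ` -/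

/-- A ring automorphism of `ℂ` as a `ℚ`-algebra automorphism. -/
def F1_algEquiv (e : ℂ ≃+* ℂ) : ℂ ≃ₐ[ℚ] ℂ :=
  AlgEquiv.ofRingEquiv (f := e) (fun q => by simp)

@[simp] theorem F1_coe_algEquiv (e : ℂ ≃+* ℂ) :
    ((F1_algEquiv e : ℂ ≃ₐ[ℚ] ℂ) : ℂ →+* ℂ) = (e : ℂ →+* ℂ) := rfl

omit [NeZero N] in
/-- **(F2)** `ord_w (σ f) = ord_{σ⁻¹ w} f` for the coefficientwise action of `σ ∈ Aut(ℂ)` on
`F_ℂ` (Prelude `arithmeticGalois`). -/
theorem F1_ord_arith_smul (σ : ℂ ≃ₐ[ℚ] ℂ) (f : FFK ℂ N) (w : Place ℂ (FFK ℂ N)) :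
    w.ord (arithmeticGalois (L := ℂ) (modularFunctionFieldFull N) σ • f)
      = ((arithmeticGalois (L := ℂ) (modularFunctionFieldFull N) σ)⁻¹ • w).ord f := by
  have h := SemilinearAut.ord_smul
    (arithmeticGalois (L := ℂ) (modularFunctionFieldFull N) σ)⁻¹ w
    (arithmeticGalois (L := ℂ) (modularFunctionFieldFull N) σ • f)
  rw [inv_smul_smul] at h
  exact h.symm

/-- **(F1) + (F2)**: for every ring automorphism `e` of `ℂ`, every `f ∈ F_ℂ` whose Laurent series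
is `e` applied coefficientwise to `qexp (U ^ p)` satisfies `p ∣ ord_w f` at every place `w`. -/
theorem F1_dvd_ord_coeffMap {c : G0 N → ZMod p} (hc : IsParHom c) {U : ℍ → ℂ}
    (hU : IsTwisted N p c U) (e : ℂ ≃+* ℂ) {f : FFK ℂ N}
    (hf : (f : LaurentSeries ℂ) = coeffMap (e : ℂ →+* ℂ) (qexpFun 1 (fun τ => U τ ^ p)))
    (w : Place ℂ (FFK ℂ N)) : (p : ℤ) ∣ w.ord f := by
  have h1 : f = arithmeticGalois (L := ℂ) (modularFunctionFieldFull N) (F1_algEquiv e)
      • F1_qexpPow hU := by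
    apply Subtype.ext
    rw [coe_arithmeticGalois_smul, hf]
    rfl
  rw [h1, F1_ord_arith_smul]
  exact F1_dvd_ord_qexpPow hc hU _

omit [NeZero p] in
/-- `coeffMap e (qexp (U ^ p)) ∈ F_ℂ` for every ring automorphism `e` of `ℂ`. -/
theorem F1_coeffMap_mem {c : G0 N → ZMod p} {U : ℍ → ℂ} (hU : IsTwisted N p c U)
    (e : ℂ ≃+* ℂ) :
    coeffMap (e : ℂ →+* ℂ) (qexpFun 1 (fun τ => U τ ^ p))
      ∈ laurentBaseChange ℂ (modularFunctionFieldFull N) :=
  (arithmeticGalois (L := ℂ) (modularFunctionFieldFull N) (F1_algEquiv e) • F1_qexpPow hU).2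

end Fermat.Agent.S29.H389
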